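import Mathlib

/-!
# S48 / Tower A1 / piece P2 (helper788): the inverse Teichmüller character of a residue map

For a prime `ℓ`, a field `k` of characteristic `ℓ` and a ring hom `φ : ℤ̄ → k` there is a Dirichlet
character `ψ : (ℤ/ℓ)ˣ → ℂˣ` with values in `ℤ̄` (`(ℓ-1)`-th roots of unity) and `φ(ψ(a)) · a = 1`
in `k` for every unit `a`: `ψ = ω⁻¹`, `ω` the Teichmüller character relative to `φ`.
-/

set_option autoImplicit false

noncomputable section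

namespace Fermat.Agent.S48.H788

open Polynomial

/-- `ℤ̄ ⊆ ℂ`. -/
abbrev ZbarT : Type := integralClosure ℤ ℂ

section

variable (ℓ : ℕ) [hℓ : Fact ℓ.Prime] {k : Type*} [Field k] [CharP k ℓ] (φ : ZbarT →+* k)

/-- The standard primitive `(ℓ-1)`-th root of unity of `ℂ`, as an algebraic integer. -/
def zetaT : ZbarT :=
  ⟨Complex.exp (2 * Real.pi * Complex.I / ((ℓ - 1 : ℕ) : ℂ)), by
    have hn : ℓ - 1 ≠ 0 := Nat.sub_ne_zero_of_lt hℓ.out.one_lt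
    have h := Complex.isPrimitiveRoot_exp (ℓ - 1) hn
    exact IsIntegral.of_pow (Nat.pos_of_ne_zero hn) (by rw [h.pow_eq_one]; exact isIntegral_one)⟩

theorem zetaT_isPrimitiveRoot : IsPrimitiveRoot ((zetaT ℓ : ZbarT) : ℂ) (ℓ - 1) :=
  Complex.isPrimitiveRoot_exp (ℓ - 1) (Nat.sub_ne_zero_of_lt hℓ.out.one_lt)

theorem natCast_sub_one_ne_zero : (((ℓ - 1 : ℕ)) : k) ≠ 0 := by
  intro h
  have h1 : (ℓ : k) = 0 := CharP.cast_eq_zero k ℓ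
  have h2 : ℓ ∣ ℓ - 1 := (CharP.cast_eq_zero_iff k ℓ (ℓ - 1)).mp h
  have h3 := Nat.le_of_dvd (Nat.sub_pos_of_lt hℓ.out.one_lt) h2
  have := hℓ.out.one_lt
  omega

/-- The image of `ζ` in `k` is a primitive `(ℓ-1)`-th root of unity. -/
theorem map_zetaT_isPrimitiveRoot : IsPrimitiveRoot (φ (zetaT ℓ)) (ℓ - 1) := by
  have hn : 0 < ℓ - 1 := Nat.sub_pos_of_lt hℓ.out.one_lt
  have hk : NeZero (((ℓ - 1 : ℕ)) : k) := ⟨natCast_sub_one_ne_zero ℓ⟩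
  have hC : NeZero (((ℓ - 1 : ℕ)) : ℂ) := ⟨Nat.cast_ne_zero.mpr hn.ne'⟩
  have h0 : (cyclotomic (ℓ - 1) ℂ).IsRoot ((zetaT ℓ : ZbarT) : ℂ) :=
    (Polynomial.isRoot_cyclotomic_iff (R := ℂ) (n := ℓ - 1)).mpr (zetaT_isPrimitiveRoot ℓ)
  have h1 : aeval ((zetaT ℓ : ZbarT) : ℂ) (cyclotomic (ℓ - 1) ℤ) = 0 := by
    rw [aeval_def, eval₂_eq_eval_map, map_cyclotomic]
    exact h0
  have h2 : aeval (zetaT ℓ : ZbarT) (cyclotomic (ℓ - 1) ℤ) = 0 := by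
    apply Subtype.ext
    have := (aeval_algebraMap_apply ℂ (zetaT ℓ : ZbarT) (cyclotomic (ℓ - 1) ℤ))
    simpa [h1] using this.symm
  have e : φ.comp (algebraMap ℤ ZbarT) = Int.castRingHom k := RingHom.ext_int _ _
  have h3 : (cyclotomic (ℓ - 1) ℤ).eval₂ (Int.castRingHom k) (φ (zetaT ℓ)) = 0 := by
    have := congrArg φ h2
    rw [map_zero, aeval_def, hom_eval₂, e] at this
    exact this
  refine (Polynomial.isRoot_cyclotomic_iff (R := k) (n := ℓ - 1)).mp ?_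
  rw [IsRoot.def, ← map_cyclotomic_int, eval_map]
  exact h3

/-- The canonical map `ℤ/ℓ → k`. -/
abbrev castT : ZMod ℓ →+* k := ZMod.castHom (dvd_refl ℓ) k

theorem exists_exponent (u : (ZMod ℓ)ˣ) :
    ∃ i : ℕ, i < ℓ - 1 ∧ (φ (zetaT ℓ)) ^ i = castT ℓ (k := k) ((u⁻¹ : (ZMod ℓ)ˣ) : ZMod ℓ) := by
  have hz := map_zetaT_isPrimitiveRoot ℓ φ
  have hn : 0 < ℓ - 1 := Nat.sub_pos_of_lt hℓ.out.one_lt
  have h1 : (castT ℓ (k := k) ((u⁻¹ : (ZMod ℓ)ˣ) : ZMod ℓ)) ^ (ℓ - 1) = 1 := by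
    rw [← map_pow, ZMod.pow_card_sub_one_eq_one (Units.ne_zero _), map_one]
  have : NeZero (ℓ - 1) := ⟨hn.ne'⟩
  obtain ⟨i, hi, h⟩ := hz.eq_pow_of_pow_eq_one h1
  exact ⟨i, hi, h⟩

/-- The exponent `i(u)` with `φ(ζ)^{i(u)} = u⁻¹` in `k`. -/
def expT (u : (ZMod ℓ)ˣ) : ℕ := Classical.choose (exists_exponent ℓ φ u)

theorem expT_lt (u : (ZMod ℓ)ˣ) : expT ℓ φ u < ℓ - 1 :=
  (Classical.choose_spec (exists_exponent ℓ φ u)).1

theorem expT_spec (u : (ZMod ℓ)ˣ) :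
    (φ (zetaT ℓ)) ^ expT ℓ φ u = castT ℓ (k := k) ((u⁻¹ : (ZMod ℓ)ˣ) : ZMod ℓ) :=
  (Classical.choose_spec (exists_exponent ℓ φ u)).2

theorem zetaT_ne_zero : ((zetaT ℓ : ZbarT) : ℂ) ≠ 0 :=
  (zetaT_isPrimitiveRoot ℓ).ne_zero (Nat.sub_ne_zero_of_lt hℓ.out.one_lt)

theorem zetaT_pow_congr {i j : ℕ} (h : (φ (zetaT ℓ)) ^ i = (φ (zetaT ℓ)) ^ j) :
    ((zetaT ℓ : ZbarT) : ℂ) ^ i = ((zetaT ℓ : ZbarT) : ℂ) ^ j := by
  have hz := map_zetaT_isPrimitiveRoot ℓ φ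
  have hζ := zetaT_isPrimitiveRoot ℓ
  have hn : 0 < ℓ - 1 := Nat.sub_pos_of_lt hℓ.out.one_lt
  have h1 : (φ (zetaT ℓ)) ^ (i % (ℓ - 1)) = (φ (zetaT ℓ)) ^ (j % (ℓ - 1)) := by
    have e1 : (φ (zetaT ℓ)) ^ (i % (ℓ - 1)) = (φ (zetaT ℓ)) ^ i := by
      conv_rhs => rw [← Nat.mod_add_div i (ℓ - 1), pow_add, pow_mul, hz.pow_eq_one, one_pow,
        mul_one]
    have e2 : (φ (zetaT ℓ)) ^ (j % (ℓ - 1)) = (φ (zetaT ℓ)) ^ j := by
      conv_rhs => rw [← Nat.mod_add_div j (ℓ - 1), pow_add, pow_mul, hz.pow_eq_one, one_pow,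
        mul_one]
    rw [e1, e2, h]
  have h2 := hz.pow_inj (Nat.mod_lt _ hn) (Nat.mod_lt _ hn) h1
  conv_lhs => rw [← Nat.mod_add_div i (ℓ - 1), pow_add, pow_mul, hζ.pow_eq_one, one_pow, mul_one]
  conv_rhs => rw [← Nat.mod_add_div j (ℓ - 1), pow_add, pow_mul, hζ.pow_eq_one, one_pow, mul_one]
  rw [h2]

/-- The inverse Teichmüller character on units. -/
def teichUnitHom : (ZMod ℓ)ˣ →* ℂˣ where
  toFun u := Units.mk0 (((zetaT ℓ : ZbarT) : ℂ) ^ expT ℓ φ u) (pow_ne_zero _ (zetaT_ne_zero ℓ))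
  map_one' := by
    apply Units.ext
    show ((zetaT ℓ : ZbarT) : ℂ) ^ expT ℓ φ 1 = 1
    rw [← pow_zero ((zetaT ℓ : ZbarT) : ℂ)]
    apply zetaT_pow_congr ℓ φ
    rw [expT_spec, pow_zero]
    simp
  map_mul' u v := by
    apply Units.ext
    show ((zetaT ℓ : ZbarT) : ℂ) ^ expT ℓ φ (u * v) =
      ((zetaT ℓ : ZbarT) : ℂ) ^ expT ℓ φ u * ((zetaT ℓ : ZbarT) : ℂ) ^ expT ℓ φ v
    rw [← pow_add]
    apply zetaT_pow_congr ℓ φ
    rw [pow_add, expT_spec, expT_spec, expT_spec, ← map_mul]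
    congr 1
    rw [mul_inv, Units.val_mul]

/-- The inverse Teichmüller character `ψ = ω⁻¹` relative to `φ`. -/
def teichInv : DirichletCharacter ℂ ℓ := MulChar.ofUnitHom (teichUnitHom ℓ φ)

theorem teichInv_coe (u : (ZMod ℓ)ˣ) :
    teichInv ℓ φ (u : ZMod ℓ) = (((zetaT ℓ) ^ expT ℓ φ u : ZbarT) : ℂ) := by
  unfold teichInv
  rw [MulChar.ofUnitHom_coe]
  rfl

theorem castT_eq_val (a : ZMod ℓ) : castT ℓ (k := k) a = ((a.val : ℕ) : k) := by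
  rw [ZMod.castHom_apply, ZMod.natCast_val]

/-- Values of `ψ` are algebraic integers, and `φ(ψ(a)) · a = 1` for `a ≠ 0`. -/
theorem teichInv_spec (a : ZMod ℓ) :
    ∃ z : ZbarT, (z : ℂ) = teichInv ℓ φ a ∧
      φ z * ((a.val : ℕ) : k) = if a = 0 then 0 else 1 := by
  by_cases ha : a = 0
  · subst ha
    refine ⟨0, ?_, by simp⟩
    have : ¬ IsUnit (0 : ZMod ℓ) := not_isUnit_zero
    rw [MulChar.map_nonunit _ this]
    rfl
  · obtain ⟨u, rfl⟩ : IsUnit a := IsUnit.mk0 a ha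
    refine ⟨(zetaT ℓ) ^ expT ℓ φ u, (teichInv_coe ℓ φ u).symm, ?_⟩
    rw [if_neg ha, map_pow, expT_spec, ← castT_eq_val, ← map_mul, Units.inv_mul, map_one]

/-- `ψ` is odd (for `ℓ ≠ 2`). -/
theorem teichInv_odd (hℓ2 : ℓ ≠ 2) : (teichInv ℓ φ).Odd := by
  have hsq : (teichInv ℓ φ (-1)) ^ 2 = 1 := by
    rw [← map_pow]; simp
  have hcases : teichInv ℓ φ (-1) = 1 ∨ teichInv ℓ φ (-1) = -1 := by
    have : (teichInv ℓ φ (-1) - 1) * (teichInv ℓ φ (-1) + 1) = 0 := by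
      ring_nf; rw [hsq]; ring
    rcases mul_eq_zero.mp this with h | h
    · left; exact sub_eq_zero.mp h
    · right; exact eq_neg_of_add_eq_zero_left h
  rcases hcases with h | h
  · exfalso
    obtain ⟨z, hz, hφ⟩ := teichInv_spec ℓ φ (-1 : ZMod ℓ)
    have hne : (-1 : ZMod ℓ) ≠ 0 := neg_ne_zero.mpr one_ne_zero
    rw [if_neg hne] at hφ
    have hz1 : z = 1 := by
      apply Subtype.ext
      rw [hz, h]
      rfl
    rw [hz1, map_one, one_mul, ← castT_eq_val, map_neg, map_one] at hφ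
    -- `-1 = 1` in `k` forces `ℓ = 2`
    have h2 : (2 : k) = 0 := by
      have : (1 : k) + 1 = 0 := by
        nth_rewrite 1 [← hφ]
        ring
      rw [← this]; norm_num
    have h3 : ((2 : ℕ) : k) = 0 := by exact_mod_cast h2
    have h4 : ℓ ∣ 2 := (CharP.cast_eq_zero_iff k ℓ 2).mp h3
    have h5 := (Nat.prime_dvd_prime_iff_eq hℓ.out Nat.prime_two).mp h4
    exact hℓ2 h5
  · exact h

end

end Fermat.Agent.S48.H788
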