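import Fermat.Agent.S48.H788.EisAlg
import Fermat.Agent.S48.H788.Teich

/-!
# S48 / Tower A1 / piece P2-EIS, step 6 (helper788): the multiplier `H ≡ 1 mod λ`

Given the Eisenstein family of level `ℓ` (steps 1–4 of P2-EIS) and a residue map `φ : ℤ̄ → k`,
`char k = ℓ ≠ 2`: a weight-one form `H` on `Γ₁(ℓ)` with nebentypus `ψ = ω⁻¹` (inverse Teichmüller
character relative to `φ`), with `q`-coefficients in `ℤ̄`, and `φ(a₀(H)) = 1`, `φ(a_n(H)) = 0` for
`n ≥ 1`.   (`H = 2ℓ · E_{1,ψ}`.)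
-/

set_option autoImplicit false

noncomputable section

namespace Fermat.Agent.S48.H788

open UpperHalfPlane ModularFormClass CongruenceSubgroup
open scoped Real MatrixGroups ModularForm

section

variable (ℓ : ℕ) [hℓ : Fact ℓ.Prime] {k : Type*} [Field k] [CharP k ℓ] (φ : ZbarT →+* k)

theorem teichInv_isPrimitive (hℓ2 : ℓ ≠ 2) : (teichInv ℓ φ).IsPrimitive := by
  rw [DirichletCharacter.isPrimitive_def]
  have hd := DirichletCharacter.conductor_dvd_level (teichInv ℓ φ)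
  rcases (Nat.dvd_prime hℓ.out).mp hd with h | h
  · exfalso
    have := (DirichletCharacter.eq_one_iff_conductor_eq_one (χ := teichInv ℓ φ)).mpr h
    exact odd_ne_one (teichInv_odd ℓ φ hℓ2) this
  · exact h

/-- A choice of algebraic integers representing the values of `ψ`. -/
def teichVal (a : ZMod ℓ) : ZbarT := Classical.choose (teichInv_spec ℓ φ a)

theorem teichVal_coe (a : ZMod ℓ) : ((teichVal ℓ φ a : ZbarT) : ℂ) = teichInv ℓ φ a :=
  (Classical.choose_spec (teichInv_spec ℓ φ a)).1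

theorem teichVal_spec (a : ZMod ℓ) :
    φ (teichVal ℓ φ a) * ((a.val : ℕ) : k) = if a = 0 then 0 else 1 :=
  (Classical.choose_spec (teichInv_spec ℓ φ a)).2

theorem sum_range_teich :
    ∑ a ∈ Finset.range ℓ, ((a : ℕ) : k) * φ (teichVal ℓ φ (a : ZMod ℓ)) = -1 := by
  have h1 : ∀ a ∈ Finset.range ℓ, ((a : ℕ) : k) * φ (teichVal ℓ φ (a : ZMod ℓ)) =
      if a = 0 then 0 else 1 := by
    intro a ha
    have hlt : a < ℓ := Finset.mem_range.mp ha
    have hv : ((a : ZMod ℓ)).val = a := ZMod.val_natCast_of_lt hlt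
    have := teichVal_spec ℓ φ (a : ZMod ℓ)
    rw [hv, mul_comm] at this
    rw [this]
    have hiff : ((a : ZMod ℓ) = 0) ↔ a = 0 := by
      constructor
      · intro h0
        have := (ZMod.natCast_eq_zero_iff a ℓ).mp h0
        exact Nat.eq_zero_of_dvd_of_lt this hlt
      · intro h0; rw [h0]; simp
    by_cases h0 : a = 0
    · rw [if_pos h0, if_pos (hiff.mpr h0)]
    · rw [if_neg h0, if_neg (fun h => h0 (hiff.mp h))]
  rw [Finset.sum_congr rfl h1]
  have hpos : 0 < ℓ := hℓ.out.pos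
  rw [Finset.sum_ite, Finset.sum_const_zero, zero_add, Finset.sum_const, nsmul_eq_mul, mul_one]
  have hcard : (Finset.filter (fun a => ¬ a = 0) (Finset.range ℓ)).card = ℓ - 1 := by
    have : Finset.filter (fun a => ¬ a = 0) (Finset.range ℓ) = (Finset.range ℓ).erase 0 := by
      ext a
      simp [Finset.mem_erase, and_comm]
    rw [this, Finset.card_erase_of_mem (Finset.mem_range.mpr hpos), Finset.card_range]
  rw [hcard, Nat.cast_sub hℓ.out.one_le, CharP.cast_eq_zero k ℓ]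
  simp

/-- **P2-EIS, step 6 (CONG).** -/
theorem exists_multiplier_of_family (hℓ2 : ℓ ≠ 2)
    {F : ZMod ℓ → ModularForm (Gamma1 ℓ) 1} (hF : EisFamily ℓ F) :
    ∃ (ψ : DirichletCharacter ℂ ℓ) (H : ModularForm (Gamma1 ℓ) 1),
      (∀ a : ZMod ℓ, ∃ z : ZbarT, (z : ℂ) = ψ a ∧
        φ z * ((a.val : ℕ) : k) = if a = 0 then 0 else 1) ∧
      (∀ γ : SL(2, ℤ), γ ∈ Gamma0 ℓ →
        (⇑H) ∣[(1 : ℤ)] γ = ψ (((γ 1 1 : ℤ)) : ZMod ℓ) • ⇑H) ∧
      (∀ n : ℕ, ∃ z : ZbarT, (z : ℂ) = qCoeff (⇑H) n ∧ φ z = if n = 0 then 1 else 0) := by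
  obtain ⟨E, hE1, hE2, hE3⟩ := eisenstein_one_of_family hF (teichInv ℓ φ)
    (teichInv_odd ℓ φ hℓ2) (teichInv_isPrimitive ℓ φ hℓ2)
  have hℓC : (ℓ : ℂ) ≠ 0 := Nat.cast_ne_zero.mpr hℓ.out.ne_zero
  refine ⟨teichInv ℓ φ, ((2 * ℓ : ℂ)) • E, teichInv_spec ℓ φ, ?_, ?_⟩
  · intro γ hγ
    have : (⇑(((2 * ℓ : ℂ)) • E : ModularForm (Gamma1 ℓ) 1) : ℍ → ℂ) = (2 * ℓ : ℂ) • ⇑E := rfl
    rw [this, ModularForm.SL_smul_slash, hE1 γ hγ, smul_comm]
  · intro n
    by_cases hn : n = 0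
    · subst hn
      refine ⟨-∑ a ∈ Finset.range ℓ, ((a : ℕ) : ZbarT) * teichVal ℓ φ (a : ZMod ℓ), ?_, ?_⟩
      · rw [qCoeff_smul_788, hE2]
        push_cast
        simp_rw [teichVal_coe]
        field_simp
      · rw [if_pos rfl, map_neg, map_sum]
        simp_rw [map_mul, map_natCast]
        rw [sum_range_teich, neg_neg]
    · refine ⟨(2 * (ℓ : ZbarT)) * ∑ d ∈ n.divisors, teichVal ℓ φ (d : ZMod ℓ), ?_, ?_⟩
      · rw [qCoeff_smul_788, hE3 n (Nat.one_le_iff_ne_zero.mpr hn)]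
        push_cast
        simp_rw [teichVal_coe]
        rfl
      · rw [if_neg hn, map_mul, map_mul, map_natCast, CharP.cast_eq_zero k ℓ, mul_zero, zero_mul]

end

end Fermat.Agent.S48.H788
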