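import Mathlib
import Fermat.Prelude.Def_FLTPrelim_Modularity

/-!
# S48 / Tower A1 / piece P2-EIS, steps 5–6 (helper788): from the Eisenstein family to `E_{1,ψ}`

Input (abstract; = output of steps 1–4 of `coord/S48-P2EIS-helper796.md`): a family
`F b : ModularForm (Gamma1 N) 1`, `b : ZMod N`, with `F_b ∣ γ = F_{b d}` for `γ ∈ Γ₀(N)` and
`F_b = π cot(π b / N) + 4π ∑_{n ≥ 1} (∑_{k ∣ n} sin(2π k b / N)) qⁿ`.

Output: for `ψ` primitive and odd, the form `E = (-4πi τ(ψ̄))⁻¹ ∑_b ψ̄(b) F_b` has nebentypus `ψ`,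
constant term `-(∑_a a ψ(a)) / (2N)` and `n`-th coefficient `∑_{d ∣ n} ψ(d)`.
-/

set_option autoImplicit false

noncomputable section

namespace Fermat.Agent.S48.H788

open UpperHalfPlane ModularFormClass CongruenceSubgroup Complex
open scoped Real MatrixGroups ModularForm

/-- The abstract Eisenstein family of weight one attached to the vectors `(0, b)`. -/
structure EisFamily (N : ℕ) [NeZero N] (F : ZMod N → ModularForm (Gamma1 N) 1) : Prop where
  slash : ∀ γ : SL(2, ℤ), γ ∈ Gamma0 N → ∀ b : ZMod N, b ≠ 0 →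
    (⇑(F b)) ∣[(1 : ℤ)] γ = ⇑(F (b * ((γ 1 1 : ℤ) : ZMod N)))
  coeff_zero : ∀ b : ZMod N, b ≠ 0 →
    qCoeff (F b) 0 = π * Complex.cot (π * ((b.val : ℂ) / N))
  coeff_pos : ∀ b : ZMod N, b ≠ 0 → ∀ n : ℕ, 1 ≤ n →
    qCoeff (F b) n =
      4 * π * ∑ k ∈ n.divisors, Complex.sin (2 * π * ((k : ℂ) * (b.val : ℂ) / N))

/-! ### Finite trigonometric sums -/

section Trig

variable {N : ℕ} [NeZero N]

theorem stdAddChar_natCast_mul (k : ℕ) (b : ZMod N) :
    ZMod.stdAddChar ((k : ZMod N) * b) = exp (2 * π * Complex.I * ((k : ℂ) * (b.val : ℂ) / N)) := by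
  have h : ((k : ZMod N) * b) = (((k * b.val : ℕ) : ℤ) : ZMod N) := by
    push_cast
    rw [ZMod.natCast_zmod_val]
  rw [h, ZMod.stdAddChar_coe]
  congr 1
  push_cast
  ring

theorem stdAddChar_neg_natCast_mul (k : ℕ) (b : ZMod N) :
    ZMod.stdAddChar ((-(k : ZMod N)) * b) = exp (-(2 * π * Complex.I * ((k : ℂ) * (b.val : ℂ) / N))) := by
  rw [neg_mul, AddChar.map_neg_eq_inv, stdAddChar_natCast_mul, ← Complex.exp_neg]

/-- `sin(2π k b / N)` through the standard additive character. -/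
theorem sin_eq_stdAddChar (k : ℕ) (b : ZMod N) :
    Complex.sin (2 * π * ((k : ℂ) * (b.val : ℂ) / N)) =
      (ZMod.stdAddChar ((-(k : ZMod N)) * b) - ZMod.stdAddChar ((k : ZMod N) * b)) * Complex.I / 2 := by
  rw [stdAddChar_neg_natCast_mul, stdAddChar_natCast_mul, Complex.sin]
  congr 3
  · congr 1; ring
  · congr 1; ring

/-- `∑_{a < n} a wᵃ` in closed form. -/
theorem sum_mul_pow_aux (w : ℂ) (n : ℕ) :
    (w - 1) * ∑ a ∈ Finset.range n, (a : ℂ) * w ^ a =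
      n * w ^ n - w * ∑ a ∈ Finset.range n, w ^ a := by
  induction n with
  | zero => simp
  | succ n ih =>
    rw [Finset.sum_range_succ, Finset.sum_range_succ, mul_add, ih]
    push_cast
    ring

theorem sum_mul_pow_of_root {w : ℂ} {n : ℕ} (hw : w ^ n = 1) (hw1 : w ≠ 1) :
    (w - 1) * ∑ a ∈ Finset.range n, (a : ℂ) * w ^ a = n := by
  have hg : ∑ a ∈ Finset.range n, w ^ a = 0 := by
    have := mul_neg_geom_sum w n
    have h2 : (1 - w) * ∑ a ∈ Finset.range n, w ^ a = 0 := by rw [this, hw, sub_self]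
    rcases mul_eq_zero.mp h2 with h | h
    · exact absurd (sub_eq_zero.mp h).symm hw1
    · exact h
  rw [sum_mul_pow_aux, hw, hg]
  ring

/-- `cot(π b / N) = i + (2i/N) ∑_{a < N} a e(ab/N)` for `b ≠ 0`. -/
theorem cot_eq_sum (b : ZMod N) (hb : b ≠ 0) :
    Complex.cot (π * ((b.val : ℂ) / N)) =
      Complex.I + 2 * Complex.I / N * ∑ a ∈ Finset.range N, (a : ℂ) * ZMod.stdAddChar ((a : ZMod N) * b) := by
  set w : ℂ := ZMod.stdAddChar b with hw
  have hw1 : w ≠ 1 := by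
    intro h
    apply hb
    have := ZMod.injective_stdAddChar (N := N)
    apply this
    rw [← hw, h, AddChar.map_zero_eq_one]
  have hwN : w ^ N = 1 := by
    rw [hw, ← AddChar.map_nsmul_eq_pow]
    simp
  have hpow : ∀ a : ℕ, ZMod.stdAddChar ((a : ZMod N) * b) = w ^ a := by
    intro a
    rw [hw, ← AddChar.map_nsmul_eq_pow, nsmul_eq_mul]
  have hwexp : w = exp (2 * π * Complex.I * ((b.val : ℂ) / N)) := by
    have := stdAddChar_natCast_mul (N := N) 1 b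
    simp only [Nat.cast_one, one_mul] at this
    rw [hw, this]
  have hsum := sum_mul_pow_of_root hwN hw1
  have hN : (N : ℂ) ≠ 0 := Nat.cast_ne_zero.mpr (NeZero.ne N)
  have hw1' : w - 1 ≠ 0 := sub_ne_zero.mpr hw1
  have h1w : 1 - w ≠ 0 := sub_ne_zero.mpr (Ne.symm hw1)
  simp_rw [hpow]
  rw [Complex.cot_pi_eq_exp_ratio, ← hwexp]
  have hS : ∑ a ∈ Finset.range N, (a : ℂ) * w ^ a = N / (w - 1) := by
    rw [eq_div_iff hw1', mul_comm]
    exact hsum
  rw [hS]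
  field_simp
  ring_nf
  rw [Complex.I_sq]
  ring

end Trig

/-! ### Character sums -/

section CharSum

variable {N : ℕ} [NeZero N]

/-- The Gauss sum `τ(ψ̄)`. -/
def gTau (ψ : DirichletCharacter ℂ N) : ℂ := gaussSum ψ⁻¹ ZMod.stdAddChar

omit [NeZero N] in
theorem inv_isPrimitive {ψ : DirichletCharacter ℂ N} (h : ψ.IsPrimitive) : ψ⁻¹.IsPrimitive := by
  rw [DirichletCharacter.isPrimitive_def] at h ⊢
  rw [DirichletCharacter.conductor_inv, h]

theorem gTau_ne_zero {ψ : DirichletCharacter ℂ N} (h : ψ.IsPrimitive) : gTau ψ ≠ 0 := by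
  intro h0
  have h1 : ∀ k : ZMod N, ZMod.dft (⇑ψ⁻¹) k = 0 := by
    intro k
    rw [DirichletCharacter.IsPrimitive.fourierTransform_eq_inv_mul_gaussSum (inv_isPrimitive h)]
    unfold gTau at h0
    rw [h0, mul_zero]
  have h2 : ZMod.dft (⇑ψ⁻¹) = 0 := funext h1
  have h3 : (⇑ψ⁻¹ : ZMod N → ℂ) = 0 := by
    have := (ZMod.dft (N := N) (E := ℂ)).injective
    apply this
    rw [h2, map_zero]
  have h4 := congrFun h3 1
  simp at h4

theorem gaussSum_shift {ψ : DirichletCharacter ℂ N} (h : ψ.IsPrimitive) (a : ZMod N) :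
    ∑ b : ZMod N, ψ⁻¹ b * ZMod.stdAddChar (a * b) = ψ a * gTau ψ := by
  have := gaussSum_mulShift_of_isPrimitive (ZMod.stdAddChar (N := N)) (inv_isPrimitive h) a
  rw [inv_inv] at this
  unfold gTau
  rw [← this, gaussSum]
  simp [AddChar.mulShift_apply]

omit [NeZero N] in
theorem odd_ne_one {ψ : DirichletCharacter ℂ N} (hodd : ψ.Odd) : ψ ≠ 1 := by
  intro h
  have h1 : ψ (-1) = -1 := hodd
  rw [h] at h1
  have h2 : (1 : DirichletCharacter ℂ N) (-1) = 1 := by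
    exact MulChar.one_apply (isUnit_one.neg)
  rw [h2] at h1
  norm_num at h1

theorem sum_inv_eq_zero {ψ : DirichletCharacter ℂ N} (hodd : ψ.Odd) :
    ∑ b : ZMod N, ψ⁻¹ b = 0 := by
  apply MulChar.sum_eq_zero_of_ne_one
  intro h
  exact odd_ne_one hodd (inv_eq_one.mp h)

omit [NeZero N] in
theorem map_zero_of_odd {ψ : DirichletCharacter ℂ N} (hodd : ψ.Odd) : ψ⁻¹ 0 = 0 := by
  apply MulChar.map_nonunit
  intro h0
  have hsub : Subsingleton (ZMod N) := by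
    rw [isUnit_zero_iff] at h0
    exact subsingleton_of_zero_eq_one h0
  have h1 : ψ (-1) = -1 := hodd
  have h2 : (-1 : ZMod N) = 1 := Subsingleton.elim _ _
  rw [h2, map_one] at h1
  norm_num at h1

/-- `∑_b ψ̄(b) sin(2π k b / N) = -i ψ(k) τ(ψ̄)`. -/
theorem sum_inv_mul_sin {ψ : DirichletCharacter ℂ N} (hodd : ψ.Odd) (h : ψ.IsPrimitive) (k : ℕ) :
    ∑ b : ZMod N, ψ⁻¹ b * Complex.sin (2 * π * ((k : ℂ) * (b.val : ℂ) / N)) =
      -Complex.I * ψ k * gTau ψ := by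
  simp_rw [sin_eq_stdAddChar]
  have h1 := gaussSum_shift h (k : ZMod N)
  have h2 := gaussSum_shift h (-(k : ZMod N))
  have h3 : ψ (-(k : ZMod N)) = -ψ k := by
    rw [← neg_one_mul, map_mul, hodd, neg_one_mul]
  rw [h3] at h2
  calc ∑ b : ZMod N, ψ⁻¹ b * ((ZMod.stdAddChar (-(k : ZMod N) * b) -
        ZMod.stdAddChar ((k : ZMod N) * b)) * Complex.I / 2)
      = ((∑ b : ZMod N, ψ⁻¹ b * ZMod.stdAddChar (-(k : ZMod N) * b)) -
          ∑ b : ZMod N, ψ⁻¹ b * ZMod.stdAddChar ((k : ZMod N) * b)) * Complex.I / 2 := by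
        rw [← Finset.sum_sub_distrib, Finset.sum_mul, Finset.sum_div]
        refine Finset.sum_congr rfl fun b _ => ?_
        ring
    _ = -Complex.I * ψ k * gTau ψ := by
        rw [h1, h2]
        ring

/-- `∑_b ψ̄(b) cot(π b / N) = (2i/N) τ(ψ̄) ∑_{a < N} a ψ(a)`. -/
theorem sum_inv_mul_cot {ψ : DirichletCharacter ℂ N} (hodd : ψ.Odd) (h : ψ.IsPrimitive) :
    ∑ b : ZMod N, ψ⁻¹ b * Complex.cot (π * ((b.val : ℂ) / N)) =
      2 * Complex.I / N * gTau ψ * ∑ a ∈ Finset.range N, (a : ℂ) * ψ a := by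
  have h0 := map_zero_of_odd hodd
  have step : ∀ b : ZMod N, ψ⁻¹ b * Complex.cot (π * ((b.val : ℂ) / N)) =
      ψ⁻¹ b * (Complex.I + 2 * Complex.I / N *
        ∑ a ∈ Finset.range N, (a : ℂ) * ZMod.stdAddChar ((a : ZMod N) * b)) := by
    intro b
    by_cases hb : b = 0
    · rw [hb, h0, zero_mul, zero_mul]
    · rw [cot_eq_sum b hb]
  simp_rw [step, mul_add]
  rw [Finset.sum_add_distrib, ← Finset.sum_mul, sum_inv_eq_zero hodd, zero_mul, zero_add]
  calc ∑ b : ZMod N, ψ⁻¹ b * (2 * Complex.I / N *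
        ∑ a ∈ Finset.range N, (a : ℂ) * ZMod.stdAddChar ((a : ZMod N) * b))
      = ∑ b : ZMod N, ∑ a ∈ Finset.range N,
          2 * Complex.I / N * ((a : ℂ) * (ψ⁻¹ b * ZMod.stdAddChar ((a : ZMod N) * b))) := by
        refine Finset.sum_congr rfl fun b _ => ?_
        rw [Finset.mul_sum, Finset.mul_sum]
        refine Finset.sum_congr rfl fun a _ => ?_
        ring
    _ = ∑ a ∈ Finset.range N, ∑ b : ZMod N,
          2 * Complex.I / N * ((a : ℂ) * (ψ⁻¹ b * ZMod.stdAddChar ((a : ZMod N) * b))) :=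
        Finset.sum_comm
    _ = ∑ a ∈ Finset.range N, 2 * Complex.I / N * ((a : ℂ) * (ψ a * gTau ψ)) := by
        refine Finset.sum_congr rfl fun a _ => ?_
        rw [← Finset.mul_sum, ← Finset.mul_sum, gaussSum_shift h]
    _ = 2 * Complex.I / N * gTau ψ * ∑ a ∈ Finset.range N, (a : ℂ) * ψ a := by
        rw [Finset.mul_sum]
        refine Finset.sum_congr rfl fun a _ => ?_
        ring

end CharSum

/-! ### The form `E_{1,ψ}` -/

section Main

variable {N : ℕ} [NeZero N]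

theorem one_mem_strictPeriods_Gamma1_788 (N : ℕ) :
    (1 : ℝ) ∈ ((Gamma1 N).map (Matrix.SpecialLinearGroup.mapGL ℝ)).strictPeriods := by
  simp [strictPeriods_Gamma1]

omit [NeZero N] in
theorem coe_sum_788 {ι : Type*} (s : Finset ι) (f : ι → ModularForm (Gamma1 N) 1) :
    (⇑(∑ i ∈ s, f i : ModularForm (Gamma1 N) 1) : ℍ → ℂ) = ∑ i ∈ s, (⇑(f i) : ℍ → ℂ) := by
  classical
  induction s using Finset.induction_on with
  | empty => simp
  | insert a s ha ih =>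
    rw [Finset.sum_insert ha, Finset.sum_insert ha, ← ih]
    rfl

omit [NeZero N] in
theorem qCoeff_smul_788 (c : ℂ) (f : ModularForm (Gamma1 N) 1) (n : ℕ) :
    qCoeff (⇑(c • f : ModularForm (Gamma1 N) 1)) n = c * qCoeff (⇑f) n := by
  unfold qCoeff
  have := ModularForm.qExpansion_smul (h := 1) one_pos (one_mem_strictPeriods_Gamma1_788 N) c f
  have h2 : (⇑(c • f : ModularForm (Gamma1 N) 1) : ℍ → ℂ) = c • ⇑f := rfl
  rw [h2, this]
  simp

omit [NeZero N] in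
theorem qCoeff_sum_788 {ι : Type*} (s : Finset ι) (f : ι → ModularForm (Gamma1 N) 1) (n : ℕ) :
    qCoeff (⇑(∑ i ∈ s, f i : ModularForm (Gamma1 N) 1)) n = ∑ i ∈ s, qCoeff (⇑(f i)) n := by
  unfold qCoeff
  have h := map_sum
    (ModularForm.qExpansionAddHom (h := 1) one_pos (one_mem_strictPeriods_Gamma1_788 N) 1) f s
  have h' : qExpansion 1 (⇑(∑ i ∈ s, f i : ModularForm (Gamma1 N) 1)) =
      ∑ i ∈ s, qExpansion 1 (⇑(f i)) := h
  rw [h', map_sum]

/-- The unnormalised character sum `∑_b ψ̄(b) F_b`. -/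
def eisSum (F : ZMod N → ModularForm (Gamma1 N) 1) (ψ : DirichletCharacter ℂ N) :
    ModularForm (Gamma1 N) 1 :=
  ∑ b : ZMod N, ψ⁻¹ b • F b

theorem qCoeff_eisSum (F : ZMod N → ModularForm (Gamma1 N) 1) (ψ : DirichletCharacter ℂ N)
    (n : ℕ) : qCoeff (⇑(eisSum F ψ)) n = ∑ b : ZMod N, ψ⁻¹ b * qCoeff (⇑(F b)) n := by
  unfold eisSum
  rw [qCoeff_sum_788]
  refine Finset.sum_congr rfl fun b _ => ?_
  rw [qCoeff_smul_788]

omit [NeZero N] in
theorem isUnit_of_mem_Gamma0 {γ : SL(2, ℤ)} (hγ : γ ∈ Gamma0 N) :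
    IsUnit (((γ 1 1 : ℤ)) : ZMod N) := by
  rw [Gamma0_mem] at hγ
  have hdet : γ 0 0 * γ 1 1 - γ 0 1 * γ 1 0 = 1 := by
    have := γ.det_coe
    rw [Matrix.det_fin_two] at this
    exact this
  have h : ((γ 0 0 : ℤ) : ZMod N) * ((γ 1 1 : ℤ) : ZMod N) = 1 := by
    have h1 := congrArg (Int.cast : ℤ → ZMod N) hdet
    push_cast at h1
    rw [hγ, mul_zero, sub_zero] at h1
    exact h1
  exact IsUnit.of_mul_eq_one_right _ h

/-- The nebentypus of the character sum. -/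
theorem eisSum_slash {F : ZMod N → ModularForm (Gamma1 N) 1} (hF : EisFamily N F)
    {ψ : DirichletCharacter ℂ N} (hodd : ψ.Odd) (γ : SL(2, ℤ)) (hγ : γ ∈ Gamma0 N) :
    (⇑(eisSum F ψ)) ∣[(1 : ℤ)] γ = ψ (((γ 1 1 : ℤ)) : ZMod N) • ⇑(eisSum F ψ) := by
  obtain ⟨u, hu⟩ := isUnit_of_mem_Gamma0 hγ
  set d : ZMod N := ((γ 1 1 : ℤ) : ZMod N) with hd
  have h0 := map_zero_of_odd hodd
  unfold eisSum
  rw [coe_sum_788, SlashAction.sum_slash, Finset.smul_sum]
  have step : ∀ b : ZMod N, (⇑(ψ⁻¹ b • F b : ModularForm (Gamma1 N) 1) : ℍ → ℂ) ∣[(1 : ℤ)] γ =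
      ψ⁻¹ b • (⇑(F (b * d)) : ℍ → ℂ) := by
    intro b
    by_cases hb : b = 0
    · subst hb
      rw [h0]
      have : (⇑((0 : ℂ) • F 0 : ModularForm (Gamma1 N) 1) : ℍ → ℂ) = 0 := by
        ext z; simp
      rw [this, SlashAction.zero_slash, zero_smul]
    · have : (⇑(ψ⁻¹ b • F b : ModularForm (Gamma1 N) 1) : ℍ → ℂ) = ψ⁻¹ b • ⇑(F b) := rfl
      rw [this, ModularForm.SL_smul_slash, hF.slash γ hγ b hb]
  simp_rw [step]
  -- reindex `b ↦ b * d`
  have hre : ∑ b : ZMod N, ψ⁻¹ b • (⇑(F (b * d)) : ℍ → ℂ) =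
      ∑ b : ZMod N, ψ⁻¹ (b * (↑u⁻¹ : ZMod N)) • (⇑(F b) : ℍ → ℂ) := by
    refine Fintype.sum_equiv (Units.mulRight u) _ _ fun b => ?_
    rw [Units.mulRight_apply, hu, mul_assoc, ← hu, Units.mul_inv, mul_one]
  rw [hre]
  refine Finset.sum_congr rfl fun b _ => ?_
  have hψ : ψ⁻¹ (b * (↑u⁻¹ : ZMod N)) = ψ d * ψ⁻¹ b := by
    rw [map_mul, mul_comm]
    congr 1
    rw [MulChar.inv_apply, Ring.inverse_unit, inv_inv, hu]
  rw [hψ, mul_smul]
  rfl

/-- **P2-EIS, step 5.**  The weight-one Eisenstein series `E_{1,ψ}` for a primitive odd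
character `ψ`, given the Eisenstein family. -/
theorem eisenstein_one_of_family {F : ZMod N → ModularForm (Gamma1 N) 1} (hF : EisFamily N F)
    (ψ : DirichletCharacter ℂ N) (hodd : ψ.Odd) (hprim : ψ.IsPrimitive) :
    ∃ E : ModularForm (Gamma1 N) 1,
      (∀ γ : SL(2, ℤ), γ ∈ Gamma0 N →
        (⇑E) ∣[(1 : ℤ)] γ = ψ (((γ 1 1 : ℤ)) : ZMod N) • ⇑E) ∧
      qCoeff (⇑E) 0 = -(∑ a ∈ Finset.range N, (a : ℂ) * ψ a) / (2 * N) ∧
      ∀ n : ℕ, 1 ≤ n → qCoeff (⇑E) n = ∑ d ∈ n.divisors, ψ d := by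
  have hτ := gTau_ne_zero hprim
  have hπ : (π : ℂ) ≠ 0 := by exact_mod_cast Real.pi_ne_zero
  have hN : (N : ℂ) ≠ 0 := Nat.cast_ne_zero.mpr (NeZero.ne N)
  have h0 := map_zero_of_odd hodd
  set c : ℂ := (-4 * π * Complex.I * gTau ψ)⁻¹ with hc
  have hc4 : -4 * π * Complex.I * gTau ψ ≠ 0 := by
    simp [hπ, hτ, Complex.I_ne_zero]
  refine ⟨c • eisSum F ψ, ?_, ?_, ?_⟩
  · intro γ hγ
    have : (⇑(c • eisSum F ψ : ModularForm (Gamma1 N) 1) : ℍ → ℂ) = c • ⇑(eisSum F ψ) := rfl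
    rw [this, ModularForm.SL_smul_slash, eisSum_slash hF hodd γ hγ, smul_comm]
  · rw [qCoeff_smul_788, qCoeff_eisSum]
    have step : ∀ b : ZMod N, ψ⁻¹ b * qCoeff (⇑(F b)) 0 =
        π * (ψ⁻¹ b * Complex.cot (π * ((b.val : ℂ) / N))) := by
      intro b
      by_cases hb : b = 0
      · rw [hb, h0, zero_mul, zero_mul, mul_zero]
      · rw [hF.coeff_zero b hb]; ring
    simp_rw [step]
    rw [← Finset.mul_sum, sum_inv_mul_cot hodd hprim, hc]
    field_simp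
    ring
  · intro n hn
    rw [qCoeff_smul_788, qCoeff_eisSum]
    have step : ∀ b : ZMod N, ψ⁻¹ b * qCoeff (⇑(F b)) n =
        4 * π * ∑ k ∈ n.divisors,
          ψ⁻¹ b * Complex.sin (2 * π * ((k : ℂ) * (b.val : ℂ) / N)) := by
      intro b
      by_cases hb : b = 0
      · rw [hb, h0, zero_mul]
        simp
      · rw [hF.coeff_pos b hb n hn, Finset.mul_sum, Finset.mul_sum, Finset.mul_sum]
        refine Finset.sum_congr rfl fun k _ => ?_
        ring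
    simp_rw [step]
    rw [← Finset.mul_sum, Finset.sum_comm]
    simp_rw [sum_inv_mul_sin hodd hprim]
    have : ∑ x ∈ n.divisors, -Complex.I * ψ (x : ZMod N) * gTau ψ =
        -Complex.I * gTau ψ * ∑ x ∈ n.divisors, ψ (x : ZMod N) := by
      rw [Finset.mul_sum]
      refine Finset.sum_congr rfl fun k _ => ?_
      ring
    rw [this, hc]
    field_simp

end Main

end Fermat.Agent.S48.H788
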